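/-
S25 / block H, node H3a (chart theorem, existence): shared definitions.  Owner: helper285.
FROZEN INTERFACE (definitions only).
-/
import Fermat.Agent.S25.Charts.Defs

set_option autoImplicit false

universe u

open scoped TensorProduct

namespace Fermat.Agent.S25.H3a

/-- The ideal of zeros of a section `s` of a module `M`: all values `l s`, `l ∈ M^∨`. -/
def secIdeal (R : Type u) [CommRing R] {M : Type u} [AddCommGroup M] [Module R M] (s : M) :
    Ideal R :=
  LinearMap.range (Module.Dual.eval R M s)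

theorem mem_secIdeal {R : Type u} [CommRing R] {M : Type u} [AddCommGroup M] [Module R M] {s : M}
    {r : R} : r ∈ secIdeal R s ↔ ∃ l : Module.Dual R M, l s = r := Iff.rfl

variable {k : Type u} [Field k] {𝔠 : CurveCharts k} {A : Type u} [CommRing A] [Algebra k A]

variable (𝔠 A) in
/-- the ideal of the marked section `P₀ × Spec A` in `R₂ A` -/
noncomputable abbrev m0 : Ideal (𝔠.R₂ A) := RingHom.ker (𝔠.ev₀ A).toRingHom

/-- `H(-P₀) = (H₁, 𝔪₀ H₂, H₁₂)` has no cohomology (concrete form). -/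
structure NoCoh (H : Triple 𝔠 A) : Prop where
  inj : ∀ z : H.N₁ × H.N₂, z.2 ∈ m0 𝔠 A • (⊤ : Submodule (𝔠.R₂ A) H.N₂) → H.δ z = 0 → z = 0
  surj : ∀ n : H.N₁₂, ∃ z : H.N₁ × H.N₂,
    z.2 ∈ m0 𝔠 A • (⊤ : Submodule (𝔠.R₂ A) H.N₂) ∧ H.δ z = n

/-- `s` is a global section of `H` which generates `H⁰(H)` over `A`, generates `H` along the marked
section, and `H¹(H) = 0`. -/
structure GoodSection (H : Triple 𝔠 A) (s : H.N₁ × H.N₂) : Prop where
  ker : H.δ s = 0
  gen : ∀ z, H.δ z = 0 → ∃ a : A, z = a • s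
  surj : Function.Surjective H.δ
  genP0 : ∀ m : H.N₂, ∃ r : 𝔠.R₂ A, m - r • s.2 ∈ m0 𝔠 A • (⊤ : Submodule (𝔠.R₂ A) H.N₂)

end Fermat.Agent.S25.H3a
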