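/-
S25 / H3a, node A1: sections of invertible modules.  Owner: helper206.
-/
import Fermat.Agent.S25.Charts.ChartExists.Defs

set_option autoImplicit false

universe u

open scoped TensorProduct

namespace Fermat.Agent.S25.H3a

variable {R : Type u} [CommRing R] {M : Type u} [AddCommGroup M] [Module R M]

/-- the rank one identity -/
theorem dual_apply_smul_comm [Module.Invertible R M] (l : Module.Dual R M) (a b : M) :
    l a • b = l b • a := by
  let Φ : M ⊗[R] M →ₗ[R] M := TensorProduct.lift ((LinearMap.lsmul R M).comp l)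
  have h1 : Φ (a ⊗ₜ[R] b) = l a • b := by simp [Φ]
  have h2 : Φ (b ⊗ₜ[R] a) = l b • a := by simp [Φ]
  rw [← h1, ← h2, Module.Invertible.tmul_comm]

namespace InvSection

/-- a partition of unity for an invertible module -/
theorem exists_fin_dual_sum (R : Type u) [CommRing R] (M : Type u) [AddCommGroup M] [Module R M]
    [Module.Invertible R M] :
    ∃ (n : ℕ) (μ : Fin n → Module.Dual R M) (h : Fin n → M), ∑ j, μ j (h j) = 1 := by
  obtain ⟨S, hS⟩ := ((Module.Invertible.linearEquiv R M).symm 1).exists_finset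
  replace hS : 1 = ∑ i ∈ S, i.1 i.2 := by
    simpa [LinearEquiv.symm_apply_eq, Module.Invertible.linearEquiv] using hS
  refine ⟨S.card, fun j => (S.equivFin.symm j).1.1, fun j => (S.equivFin.symm j).1.2, ?_⟩
  rw [hS, ← Finset.sum_coe_sort S (fun i => i.1 i.2)]
  exact Equiv.sum_comp S.equivFin.symm (fun i : S => i.1.1 i.1.2)

theorem dual_mem_of_mem_smul_top (𝔪 : Ideal R) (l : Module.Dual R M) {x : M}
    (hx : x ∈ 𝔪 • (⊤ : Submodule R M)) : l x ∈ 𝔪 := by
  induction hx using Submodule.smul_induction_on' with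
  | smul r hr m _ =>
    rw [map_smul, smul_eq_mul]
    exact 𝔪.mul_mem_right _ hr
  | add x _ y _ hx hy =>
    rw [map_add]
    exact 𝔪.add_mem hx hy

end InvSection

open InvSection

theorem secIdeal_smul_top [Module.Invertible R M] (s : M) :
    secIdeal R s • (⊤ : Submodule R M) = Submodule.span R {s} := by
  apply le_antisymm
  · rw [Submodule.smul_le]
    intro r hr m _
    obtain ⟨l, rfl⟩ := mem_secIdeal.mp hr
    rw [dual_apply_smul_comm]
    exact Submodule.smul_mem _ _ (Submodule.mem_span_singleton_self s)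
  · rw [Submodule.span_singleton_le_iff_mem]
    obtain ⟨n, μ, h, hsum⟩ := exists_fin_dual_sum R M
    have : s = ∑ j, μ j s • h j := by
      calc s = (1 : R) • s := (one_smul R s).symm
        _ = ∑ j, μ j (h j) • s := by rw [← hsum, Finset.sum_smul]
        _ = ∑ j, μ j s • h j := Finset.sum_congr rfl fun j _ => dual_apply_smul_comm _ _ _
    have hmem : ∑ j, μ j s • h j ∈ secIdeal R s • (⊤ : Submodule R M) :=
      Submodule.sum_mem _ fun j _ =>
        Submodule.smul_mem_smul (mem_secIdeal.mpr ⟨μ j, rfl⟩) Submodule.mem_top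
    rwa [← this] at hmem

/-- `R / secIdeal s` is a retract of a power of `M / R s` -/
theorem exists_retract [Module.Invertible R M] (s : M) :
    ∃ (n : ℕ) (α : (R ⧸ secIdeal R s) →ₗ[R] (Fin n → M ⧸ Submodule.span R {s}))
      (β : (Fin n → M ⧸ Submodule.span R {s}) →ₗ[R] (R ⧸ secIdeal R s)),
      β ∘ₗ α = LinearMap.id := by
  obtain ⟨n, μ, h, hsum⟩ := exists_fin_dual_sum R M
  let α₀ : R →ₗ[R] (Fin n → M ⧸ Submodule.span R {s}) :=
    LinearMap.pi fun j => (Submodule.span R {s}).mkQ ∘ₗ LinearMap.toSpanSingleton R M (h j)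
  have hα₀ : secIdeal R s ≤ LinearMap.ker α₀ := by
    intro r hr
    obtain ⟨l, rfl⟩ := mem_secIdeal.mp hr
    rw [LinearMap.mem_ker]
    ext j
    simp only [α₀, LinearMap.pi_apply, LinearMap.comp_apply, LinearMap.toSpanSingleton_apply,
      Pi.zero_apply, Submodule.mkQ_apply, Submodule.Quotient.mk_eq_zero]
    rw [dual_apply_smul_comm]
    exact Submodule.smul_mem _ _ (Submodule.mem_span_singleton_self s)
  let β₀ : Fin n → (M ⧸ Submodule.span R {s}) →ₗ[R] (R ⧸ secIdeal R s) := fun j =>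
    (Submodule.span R {s}).liftQ ((secIdeal R s).mkQ ∘ₗ μ j) (by
      rw [Submodule.span_singleton_le_iff_mem, LinearMap.mem_ker, LinearMap.comp_apply,
        Submodule.mkQ_apply, Submodule.Quotient.mk_eq_zero]
      exact mem_secIdeal.mpr ⟨μ j, rfl⟩)
  refine ⟨n, (secIdeal R s).liftQ α₀ hα₀, ∑ j, β₀ j ∘ₗ LinearMap.proj j, ?_⟩
  apply Submodule.linearMap_qext
  ext
  simp only [LinearMap.comp_apply, Submodule.mkQ_apply, Submodule.liftQ_apply, LinearMap.id_apply,
    LinearMap.sum_apply, LinearMap.proj_apply, α₀, β₀, LinearMap.pi_apply,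
    LinearMap.toSpanSingleton_apply, one_smul]
  rw [← hsum]
  exact (map_sum (Submodule.mkQ (secIdeal R s)) (fun j => μ j (h j)) Finset.univ).symm

theorem secIdeal_sup_eq_top [Module.Invertible R M] (s : M) (𝔪 : Ideal R)
    (h : ∀ m : M, ∃ r : R, m - r • s ∈ 𝔪 • (⊤ : Submodule R M)) : secIdeal R s ⊔ 𝔪 = ⊤ := by
  obtain ⟨n, μ, e, hsum⟩ := exists_fin_dual_sum R M
  rw [Ideal.eq_top_iff_one, ← hsum]
  refine Submodule.sum_mem _ fun j _ => ?_
  obtain ⟨r, hr⟩ := h (e j)
  have h1 : μ j (e j) = r * μ j s + μ j (e j - r • s) := by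
    rw [map_sub, map_smul, smul_eq_mul]; ring
  rw [h1]
  exact Submodule.add_mem_sup ((secIdeal R s).mul_mem_left _ (mem_secIdeal.mpr ⟨μ j, rfl⟩))
    (dual_mem_of_mem_smul_top 𝔪 (μ j) hr)

theorem eq_zero_of_smul_eq_zero {s : M} {f : R} (hf : f ∈ secIdeal R s)
    (hf' : f ∈ nonZeroDivisors R) {r : R} (h : r • s = 0) : r = 0 := by
  obtain ⟨l, rfl⟩ := mem_secIdeal.mp hf
  apply (mul_right_mem_nonZeroDivisors_eq_zero_iff hf').mp
  rw [← smul_eq_mul, ← map_smul, h, map_zero]

end Fermat.Agent.S25.H3a
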