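/-
S25 / H3a, node B: the marked section in `R₂ A`.  Owner: helper206.
-/
import Fermat.Agent.S25.Charts.ChartExists.Defs
import Fermat.Agent.S25.Alg.NZD
import Fermat.Agent.S25.Alg.Dedekind
import Fermat.Agent.S25.Alg.Points
import Fermat.Agent.S25.Triple.QC
import Fermat.Agent.S25.Triple.BCLemmas

set_option autoImplicit false

universe u

open scoped TensorProduct

namespace Fermat.Agent.S25.H3a

variable {k : Type u} [Field k] (𝔠 : CurveCharts k) (A : Type u) [CommRing A] [Algebra k A]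

namespace P0

theorem not_isUnit_y : ¬ IsUnit 𝔠.y := by
  rintro ⟨v, hv⟩
  have h1 : algebraMap 𝔠.B₁ 𝔠.B₁₂ 𝔠.x = algebraMap 𝔠.B₂ 𝔠.B₁₂ (↑v⁻¹ : 𝔠.B₂) := by
    have h2 : algebraMap 𝔠.B₂ 𝔠.B₁₂ 𝔠.y * algebraMap 𝔠.B₂ 𝔠.B₁₂ (↑v⁻¹ : 𝔠.B₂) = 1 := by
      rw [← map_mul, ← hv, Units.mul_inv, map_one]
    calc algebraMap 𝔠.B₁ 𝔠.B₁₂ 𝔠.x
        = algebraMap 𝔠.B₁ 𝔠.B₁₂ 𝔠.x *
            (algebraMap 𝔠.B₂ 𝔠.B₁₂ 𝔠.y * algebraMap 𝔠.B₂ 𝔠.B₁₂ (↑v⁻¹ : 𝔠.B₂)) := by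
          rw [h2, mul_one]
      _ = algebraMap 𝔠.B₂ 𝔠.B₁₂ (↑v⁻¹ : 𝔠.B₂) := by rw [← mul_assoc, 𝔠.xy, one_mul]
  obtain ⟨c, hc⟩ := 𝔠.const _ _ h1
  exact 𝔠.trans₁ (hc ▸ isAlgebraic_algebraMap c)

theorem ev₀_tmul (a : A) (b : 𝔠.B₂) : 𝔠.ev₀ A (a ⊗ₜ b) = a * algebraMap k A (𝔠.e₀ b) := by
  simp [CurveCharts.ev₀, Algebra.smul_def, mul_comm]

end P0

theorem e₀_y : 𝔠.e₀ 𝔠.y = 0 := by
  obtain ⟨𝔮, hq, hy⟩ := exists_max_ideal_of_mem_nonunits (mem_nonunits_iff.mpr (P0.not_isUnit_y 𝔠))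
  have := 𝔠.pole 𝔮 hq.isPrime hy
  rw [this] at hy
  exact hy

theorem yA_mem_m0 : 𝔠.yA A ∈ m0 𝔠 A := by
  change 𝔠.ev₀ A (𝔠.yA A) = 0
  rw [CurveCharts.yA, P0.ev₀_tmul, e₀_y, map_zero, mul_zero]

theorem sub_algebraMap_ev₀_mem (r : 𝔠.R₂ A) :
    r - algebraMap A (𝔠.R₂ A) (𝔠.ev₀ A r) ∈ m0 𝔠 A := by
  change 𝔠.ev₀ A _ = 0
  rw [map_sub, AlgHom.commutes, Algebra.algebraMap_self_apply, sub_self]

variable {𝔠 A}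

/-- set-theoretically `V(y) = P₀ × Spec A` -/
theorem m0_le_of_yA_mem (𝔮 : Ideal (𝔠.R₂ A)) [𝔮.IsPrime] (h : 𝔠.yA A ∈ 𝔮) : m0 𝔠 A ≤ 𝔮 := by
  let ι : 𝔠.B₂ →+* 𝔠.R₂ A := (Algebra.TensorProduct.includeRight : 𝔠.B₂ →ₐ[k] A ⊗[k] 𝔠.B₂).toRingHom
  have hι : ∀ b, ι b = (1 : A) ⊗ₜ[k] b := fun b => rfl
  have hpole : 𝔮.comap ι = RingHom.ker 𝔠.e₀ :=
    𝔠.pole (𝔮.comap ι) (Ideal.comap_isPrime ι 𝔮) (by rw [Ideal.mem_comap, hι]; exact h)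
  have key : ∀ z : 𝔠.R₂ A, z - algebraMap A (𝔠.R₂ A) (𝔠.ev₀ A z) ∈ 𝔮 := by
    intro z
    induction z using TensorProduct.induction_on with
    | zero => simp
    | tmul a b =>
      have hb : b - algebraMap k 𝔠.B₂ (𝔠.e₀ b) ∈ 𝔮.comap ι := by
        rw [hpole, RingHom.mem_ker, map_sub, AlgHom.commutes, Algebra.algebraMap_self_apply,
          sub_self]
      rw [Ideal.mem_comap, hι] at hb
      have hEq : a ⊗ₜ[k] b - algebraMap A (𝔠.R₂ A) (𝔠.ev₀ A (a ⊗ₜ[k] b))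
          = (a ⊗ₜ[k] (1 : 𝔠.B₂)) * ((1 : A) ⊗ₜ[k] (b - algebraMap k 𝔠.B₂ (𝔠.e₀ b))) := by
        rw [P0.ev₀_tmul, Algebra.TensorProduct.algebraMap_apply, Algebra.TensorProduct.tmul_mul_tmul,
          mul_one, one_mul, TensorProduct.tmul_sub, Algebra.algebraMap_self_apply]
        congr 1
        rw [Algebra.algebraMap_eq_smul_one (𝔠.e₀ b), Algebra.algebraMap_eq_smul_one (𝔠.e₀ b),
          TensorProduct.tmul_smul, mul_smul_comm, mul_one, TensorProduct.smul_tmul']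
      rw [hEq]
      exact 𝔮.mul_mem_left _ hb
    | add z w hz hw =>
      have : z + w - algebraMap A (𝔠.R₂ A) (𝔠.ev₀ A (z + w))
          = (z - algebraMap A (𝔠.R₂ A) (𝔠.ev₀ A z)) + (w - algebraMap A (𝔠.R₂ A) (𝔠.ev₀ A w)) := by
        rw [map_add, map_add]; ring
      rw [this]
      exact 𝔮.add_mem hz hw
  intro z hz
  have hz0 : 𝔠.ev₀ A z = 0 := hz
  have := key z
  rwa [hz0, map_zero, sub_zero] at this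

theorem sup_span_yA_pow_eq_top {J : Ideal (𝔠.R₂ A)} (h : J ⊔ m0 𝔠 A = ⊤) (m : ℕ) :
    J ⊔ Ideal.span {𝔠.yA A ^ m} = ⊤ := by
  by_contra hne
  obtain ⟨𝔐, hmax, hle⟩ := Ideal.exists_le_maximal _ hne
  have : 𝔐.IsPrime := hmax.isPrime
  have hy : 𝔠.yA A ^ m ∈ 𝔐 := hle (Ideal.mem_sup_right (Ideal.mem_span_singleton_self _))
  have hy' : 𝔠.yA A ∈ 𝔐 := Ideal.IsPrime.mem_of_pow_mem this m hy
  have h1 : J ⊔ m0 𝔠 A ≤ 𝔐 := sup_le (le_sup_left.trans hle) (m0_le_of_yA_mem 𝔐 hy')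
  rw [h] at h1
  exact hmax.ne_top (top_le_iff.mp h1)

theorem mem_nonZeroDivisors_of_ev₀ [IsAlgClosed k] (f : 𝔠.R₂ A) (hf : 𝔠.ev₀ A f = 1) :
    f ∈ nonZeroDivisors (𝔠.R₂ A) := by
  refine NZD.mem_nonZeroDivisors (fun K _ _ => 𝔠.isDomain_R₂ K) f fun p hp => ?_
  have h1 := 𝔠.ev₀_bc₂ (IsScalarTower.toAlgHom k A p.asIdeal.ResidueField) f
  have h2 : 𝔠.bc₂ (IsScalarTower.toAlgHom k A p.asIdeal.ResidueField) f = 0 := hp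
  rw [h2, hf, map_zero, map_one] at h1
  exact zero_ne_one h1

theorem comap_map_res₂ {J : Ideal (𝔠.R₂ A)} (h : ∀ m : ℕ, J ⊔ Ideal.span {𝔠.yA A ^ m} = ⊤) :
    (J.map (𝔠.res₂ A).toRingHom).comap (𝔠.res₂ A).toRingHom = J := by
  apply le_antisymm _ Ideal.le_comap_map
  intro r hr
  letI : Algebra (𝔠.R₂ A) (𝔠.R₁₂ A) := (𝔠.res₂ A).toRingHom.toAlgebra
  have hloc : IsLocalization.Away (𝔠.yA A) (𝔠.R₁₂ A) := 𝔠.isLocalization_res₂ A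
  have hr' : algebraMap (𝔠.R₂ A) (𝔠.R₁₂ A) r ∈ J.map (algebraMap (𝔠.R₂ A) (𝔠.R₁₂ A)) := hr
  rw [IsLocalization.algebraMap_mem_map_algebraMap_iff (Submonoid.powers (𝔠.yA A))] at hr'
  obtain ⟨_, ⟨m, rfl⟩, hm⟩ := hr'
  have h1 : (1 : 𝔠.R₂ A) ∈ J ⊔ Ideal.span {𝔠.yA A ^ m} := by rw [h m]; trivial
  obtain ⟨j, hj, c, hc, hjc⟩ := Submodule.mem_sup.mp h1
  obtain ⟨d, rfl⟩ := Ideal.mem_span_singleton'.mp hc
  have : r = j * r + d * (𝔠.yA A ^ m * r) := by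
    calc r = 1 * r := (one_mul r).symm
      _ = (j + d * 𝔠.yA A ^ m) * r := by rw [hjc]
      _ = j * r + d * (𝔠.yA A ^ m * r) := by ring
  rw [this]
  exact J.add_mem (J.mul_mem_right _ hj) (J.mul_mem_left _ hm)

end Fermat.Agent.S25.H3a
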