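/-
S25 / H3a, node A2: the ideal of zeros commutes with base change.  Owner: helper206.
-/
import Fermat.Agent.S25.Charts.ChartExists.Defs
import Fermat.Agent.S25.Charts.ChartExists.InvSection
import Fermat.Agent.S25.Triple.IHomMod
import Fermat.Agent.S25.Triple.BCModLemmas

set_option autoImplicit false

universe u

open scoped TensorProduct

namespace Fermat.Agent.S25.H3a

/-- the ideal of zeros commutes with base change -/
theorem secIdeal_map {R S : Type u} [CommRing R] [CommRing S] {σ : R →+* S} {M N : Type u}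
    [AddCommGroup M] [Module R M] [AddCommGroup N] [Module S N] {ρ : M →ₛₗ[σ] N}
    (hρ : IsBCMap σ ρ) [Module.Invertible R M] (s : M) :
    secIdeal S (ρ s) = (secIdeal R s).map σ := by
  apply le_antisymm
  · intro x hx
    obtain ⟨l', rfl⟩ := mem_secIdeal.mp hx
    obtain ⟨n, μ, h, hsum⟩ := InvSection.exists_fin_dual_sum R M
    have hs : s = ∑ j, μ j s • h j := by
      calc s = (1 : R) • s := (one_smul R s).symm
        _ = ∑ j, μ j (h j) • s := by rw [← hsum, Finset.sum_smul]
        _ = ∑ j, μ j s • h j := Finset.sum_congr rfl fun j _ => dual_apply_smul_comm _ _ _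
    have h2 : l' (ρ s) = ∑ j, σ (μ j s) * l' (ρ (h j)) := by
      conv_lhs => rw [hs]
      simp only [map_sum, LinearMap.map_smulₛₗ, map_smul, smul_eq_mul]
    rw [h2]
    exact Submodule.sum_mem _ fun j _ =>
      Ideal.mul_mem_right _ _ (Ideal.mem_map_of_mem σ (mem_secIdeal.mpr ⟨μ j, rfl⟩))
  · rw [Ideal.map_le_iff_le_comap]
    intro r hr
    obtain ⟨l, rfl⟩ := mem_secIdeal.mp hr
    rw [Ideal.mem_comap]
    refine mem_secIdeal.mpr ⟨hρ.lift (SemiExt.compLin (SemiExt.ringSemi σ) l), ?_⟩
    rw [IsBCMap.lift_apply]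
    rfl

end Fermat.Agent.S25.H3a
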