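/-
S25 / H3a, node G0: formal consequences for a good section.   Owner: helper285.
-/
import Fermat.Agent.S25.Charts.ChartExists.InvSection
import Fermat.Agent.S25.Charts.ChartExists.SecIdealMap
import Fermat.Agent.S25.Charts.ChartExists.P0
import Fermat.Agent.S25.Triple.IHomLemmas

set_option autoImplicit false

universe u

open scoped TensorProduct

namespace Fermat.Agent.S25.H3a

open Triple

variable {k : Type u} [Field k] {𝔠 : CurveCharts k} {A : Type u} [CommRing A] [Algebra k A]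
  {H : Triple 𝔠 A} {s : H.N₁ × H.N₂}

theorem GoodSection.ρ_eq (g : GoodSection H s) : H.ρ₁ s.1 = H.ρ₂ s.2 := by
  have := g.ker
  rwa [δ_apply, sub_eq_zero] at this

theorem GoodSection.sup_m0 (hH : H.IsInvertible) (g : GoodSection H s) :
    secIdeal (𝔠.R₂ A) s.2 ⊔ m0 𝔠 A = ⊤ := by
  have := hH.inv₂
  exact secIdeal_sup_eq_top s.2 _ g.genP0

theorem GoodSection.sup_pow (hH : H.IsInvertible) (g : GoodSection H s) (m : ℕ) :
    secIdeal (𝔠.R₂ A) s.2 ⊔ Ideal.span {𝔠.yA A ^ m} = ⊤ :=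
  sup_span_yA_pow_eq_top (g.sup_m0 hH) m

theorem GoodSection.inj₂ [IsAlgClosed k] (hH : H.IsInvertible) (g : GoodSection H s)
    (r : 𝔠.R₂ A) (h : r • s.2 = 0) : r = 0 := by
  have h1 : (1 : 𝔠.R₂ A) ∈ secIdeal (𝔠.R₂ A) s.2 ⊔ m0 𝔠 A := by
    rw [g.sup_m0 hH]; trivial
  obtain ⟨j, hj, t, ht, e⟩ := Submodule.mem_sup.1 h1
  have hev : 𝔠.ev₀ A j = 1 := by
    have ht' : 𝔠.ev₀ A t = 0 := ht
    have := congrArg (𝔠.ev₀ A) e
    rwa [map_add, ht', add_zero, map_one] at this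
  exact eq_zero_of_smul_eq_zero hj (mem_nonZeroDivisors_of_ev₀ j hev) h

theorem GoodSection.inj₁₂ [IsAlgClosed k] (hH : H.IsInvertible) (g : GoodSection H s)
    (r : 𝔠.R₁₂ A) (h : r • H.ρ₁ s.1 = 0) : r = 0 := by
  obtain ⟨m, r₂, hr₂⟩ := TensorAux.exists_res₂_eq 𝔠 A r
  have h0 : H.ρ₂ (r₂ • s.2) = 0 := by
    rw [H.ρ₂.map_smulₛₗ, ← g.ρ_eq]
    change (𝔠.res₂ A r₂) • H.ρ₁ s.1 = 0
    rw [hr₂, mul_smul, h, smul_zero]
  obtain ⟨m', hm'⟩ := hH.inj₂ _ h0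
  rw [← mul_smul] at hm'
  have h1 := g.inj₂ hH _ hm'
  have h2 : (𝔠.res₂ A (𝔠.yA A)) ^ (m' + m) * r = 0 := by
    rw [pow_add, mul_assoc, ← hr₂, ← map_pow, ← map_mul, h1, map_zero]
  have hu : IsUnit ((𝔠.res₂ A (𝔠.yA A)) ^ (m' + m)) := (TensorAux.isUnit_res₂_yA 𝔠 A).pow _
  exact (hu.mul_right_eq_zero).1 h2

theorem GoodSection.inj₁ [IsAlgClosed k] (hH : H.IsInvertible) (g : GoodSection H s)
    (r : 𝔠.R₁ A) (h : r • s.1 = 0) : r = 0 := by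
  have h0 : (𝔠.res₁ A r) • H.ρ₁ s.1 = 0 := by
    have := congrArg H.ρ₁ h
    rwa [H.ρ₁.map_smulₛₗ, map_zero] at this
  have h1 := g.inj₁₂ hH _ h0
  exact TensorAux.res₁_injective 𝔠 A (by rw [h1, map_zero])

theorem GoodSection.secIdeal₁₂ (hH : H.IsInvertible) (s : H.N₁ × H.N₂) :
    secIdeal (𝔠.R₁₂ A) (H.ρ₁ s.1) = (secIdeal (𝔠.R₁ A) s.1).map (𝔠.res₁ A).toRingHom := by
  have := hH.inv₁
  exact secIdeal_map hH.toIsQC.bc₁ s.1

theorem GoodSection.secIdeal₁₂' (hH : H.IsInvertible) (g : GoodSection H s) :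
    secIdeal (𝔠.R₁₂ A) (H.ρ₁ s.1) = (secIdeal (𝔠.R₂ A) s.2).map (𝔠.res₂ A).toRingHom := by
  have := hH.inv₂
  rw [g.ρ_eq]
  exact secIdeal_map hH.toIsQC.bc₂ s.2

theorem GoodSection.comap (hH : H.IsInvertible) (g : GoodSection H s) :
    ((secIdeal (𝔠.R₁ A) s.1).map (𝔠.res₁ A).toRingHom).comap (𝔠.res₂ A).toRingHom =
      secIdeal (𝔠.R₂ A) s.2 := by
  rw [← GoodSection.secIdeal₁₂ hH s, g.secIdeal₁₂' hH]
  exact comap_map_res₂ (g.sup_pow hH)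

end Fermat.Agent.S25.H3a
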