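/-
S25 / H3a, node E: for a good section `s` of `H`, `H₁ / R₁ s₁ ≅ H¹(𝒪)` (the connecting homomorphism of
`0 → 𝒪 → H → H/𝒪 s → 0`, constructed by hand through a correspondence).   Owner: helper285.
-/
import Fermat.Agent.S25.Charts.ChartExists.Good

set_option autoImplicit false

universe u

open scoped TensorProduct

namespace Fermat.Agent.S25.H3a

open Triple

variable {k : Type u} [Field k] {𝔠 : CurveCharts k} {A : Type u} [CommRing A] [Algebra k A]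
  {H : Triple 𝔠 A} {s : H.N₁ × H.N₂}

namespace Conn

theorem smul_mem₂ (hH : H.IsInvertible) {j : 𝔠.R₂ A} (hj : j ∈ secIdeal (𝔠.R₂ A) s.2)
    (h : H.N₂) : j • h ∈ Submodule.span (𝔠.R₂ A) {s.2} := by
  have := hH.inv₂
  rw [← secIdeal_smul_top]
  exact Submodule.smul_mem_smul hj trivial

theorem smul_mem₁₂ (hH : H.IsInvertible) (g : GoodSection H s) {j : 𝔠.R₂ A}
    (hj : j ∈ secIdeal (𝔠.R₂ A) s.2) (h : H.N₁₂) :
    𝔠.res₂ A j • h ∈ Submodule.span (𝔠.R₁₂ A) {H.ρ₁ s.1} := by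
  have := hH.inv₁₂
  rw [← secIdeal_smul_top, g.secIdeal₁₂' hH]
  exact Submodule.smul_mem_smul (Ideal.mem_map_of_mem (𝔠.res₂ A).toRingHom hj) trivial

theorem exists_add_eq_one (hH : H.IsInvertible) (g : GoodSection H s) (m : ℕ) :
    ∃ j ∈ secIdeal (𝔠.R₂ A) s.2, ∃ c : 𝔠.R₂ A, j + c * 𝔠.yA A ^ m = 1 := by
  have h1 : (1 : 𝔠.R₂ A) ∈ secIdeal (𝔠.R₂ A) s.2 ⊔ Ideal.span {𝔠.yA A ^ m} := by
    rw [g.sup_pow hH m]; trivial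
  obtain ⟨j, hj, t, ht, e⟩ := Submodule.mem_sup.1 h1
  obtain ⟨c, rfl⟩ := Ideal.mem_span_singleton'.1 ht
  exact ⟨j, hj, c, e⟩

/-- `H₂ / R₂ s₂ → H₁₂ / R₁₂ s₁₂` is injective -/
theorem mem_span_of_ρ₂_mem (hH : H.IsInvertible) (g : GoodSection H s) (h : H.N₂)
    (hh : H.ρ₂ h ∈ Submodule.span (𝔠.R₁₂ A) {H.ρ₁ s.1}) :
    h ∈ Submodule.span (𝔠.R₂ A) {s.2} := by
  obtain ⟨r, hr⟩ := Submodule.mem_span_singleton.1 hh
  obtain ⟨m, r₂, hr₂⟩ := TensorAux.exists_res₂_eq 𝔠 A r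
  -- `ρ₂ (y^m h - r₂ s₂) = 0`
  have h0 : H.ρ₂ (𝔠.yA A ^ m • h - r₂ • s.2) = 0 := by
    rw [map_sub, H.ρ₂.map_smulₛₗ, H.ρ₂.map_smulₛₗ, ← g.ρ_eq, ← hr]
    change (𝔠.res₂ A (𝔠.yA A ^ m)) • r • H.ρ₁ s.1 - (𝔠.res₂ A r₂) • H.ρ₁ s.1 = 0
    rw [hr₂, map_pow, mul_smul, sub_self]
  obtain ⟨m', hm'⟩ := hH.inj₂ _ h0
  obtain ⟨j, hj, c, e⟩ := exists_add_eq_one hH g (m' + m)
  have h1 : 𝔠.yA A ^ (m' + m) • h = (𝔠.yA A ^ m' * r₂) • s.2 := by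
    rw [smul_sub, sub_eq_zero] at hm'
    rw [pow_add, mul_smul, hm', mul_smul]
  have h2 : h = j • h + c • (𝔠.yA A ^ (m' + m) • h) := by
    rw [← mul_smul, ← add_smul, e, one_smul]
  rw [h2, h1]
  exact Submodule.add_mem _ (smul_mem₂ hH hj h)
    (Submodule.smul_mem _ _ (Submodule.smul_mem _ _ (Submodule.mem_span_singleton_self _)))

/-- `H₂ / R₂ s₂ → H₁₂ / R₁₂ s₁₂` is surjective -/
theorem exists_sub_ρ₂_mem (hH : H.IsInvertible) (g : GoodSection H s) (n : H.N₁₂) :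
    ∃ h : H.N₂, n - H.ρ₂ h ∈ Submodule.span (𝔠.R₁₂ A) {H.ρ₁ s.1} := by
  obtain ⟨m, h₂, hh₂⟩ := hH.surj₂ n
  obtain ⟨j, hj, c, e⟩ := exists_add_eq_one hH g m
  refine ⟨c • h₂, ?_⟩
  have h1 : n - H.ρ₂ (c • h₂) = 𝔠.res₂ A j • n := by
    rw [H.ρ₂.map_smulₛₗ, hh₂]
    change n - (𝔠.res₂ A c) • ((𝔠.res₂ A (𝔠.yA A)) ^ m • n) = _
    have e' : 𝔠.res₂ A j + 𝔠.res₂ A c * (𝔠.res₂ A (𝔠.yA A)) ^ m = 1 := by
      rw [← map_pow, ← map_mul, ← map_add, e, map_one]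
    rw [← mul_smul, sub_eq_iff_eq_add, ← add_smul, e', one_smul]
  rw [h1]
  exact smul_mem₁₂ hH g hj n

variable (H s) in
/-- `r ↦ r • s₁₂` as an `A`-linear map on the third component of the structure sheaf -/
noncomputable def mulS : (Triple.unit 𝔠 A).N₁₂ →ₗ[A] H.N₁₂ where
  toFun r := (show 𝔠.R₁₂ A from r) • H.ρ₁ s.1
  map_add' a b := add_smul (show 𝔠.R₁₂ A from a) (show 𝔠.R₁₂ A from b) _
  map_smul' a r := by
    change (algebraMap A (𝔠.R₁₂ A) a * (show 𝔠.R₁₂ A from r)) • H.ρ₁ s.1 =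
      algebraMap A (𝔠.R₁₂ A) a • ((show 𝔠.R₁₂ A from r) • H.ρ₁ s.1)
    rw [mul_smul]

variable (H s) in
/-- the correspondence `{(z, r) | δ z = r s₁₂}` -/
noncomputable def corr : Submodule A ((H.N₁ × H.N₂) × (Triple.unit 𝔠 A).N₁₂) :=
  LinearMap.ker (H.δ.coprod (-(mulS H s)))

theorem mem_corr (x : (H.N₁ × H.N₂) × (Triple.unit 𝔠 A).N₁₂) :
    x ∈ corr H s ↔ H.δ x.1 = (show 𝔠.R₁₂ A from x.2) • H.ρ₁ s.1 := by
  rw [corr, LinearMap.mem_ker, LinearMap.coprod_apply, LinearMap.neg_apply, ← sub_eq_add_neg,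
    sub_eq_zero]
  rfl

variable (H s) in
/-- first projection of the correspondence -/
noncomputable def p₁ : corr H s →ₗ[A] (H.N₁ ⧸ Submodule.span (𝔠.R₁ A) {s.1}) :=
  ((Submodule.span (𝔠.R₁ A) {s.1}).mkQ.restrictScalars A) ∘ₗ (LinearMap.fst A H.N₁ H.N₂) ∘ₗ
    (LinearMap.fst A (H.N₁ × H.N₂) (Triple.unit 𝔠 A).N₁₂) ∘ₗ (corr H s).subtype

variable (H s) in
/-- second projection of the correspondence -/
noncomputable def p₂ : corr H s →ₗ[A]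
    ((Triple.unit 𝔠 A).N₁₂ ⧸ LinearMap.range (Triple.unit 𝔠 A).δ) :=
  (LinearMap.range (Triple.unit 𝔠 A).δ).mkQ ∘ₗ
    (LinearMap.snd A (H.N₁ × H.N₂) (Triple.unit 𝔠 A).N₁₂) ∘ₗ (corr H s).subtype

theorem p₁_eq_zero_iff (x : corr H s) :
    p₁ H s x = 0 ↔ x.1.1.1 ∈ Submodule.span (𝔠.R₁ A) {s.1} :=
  Submodule.Quotient.mk_eq_zero _

theorem p₂_eq_zero_iff (x : corr H s) :
    p₂ H s x = 0 ↔ x.1.2 ∈ LinearMap.range (Triple.unit 𝔠 A).δ :=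
  Submodule.Quotient.mk_eq_zero _

theorem p₁_surjective (hH : H.IsInvertible) (g : GoodSection H s) :
    Function.Surjective (p₁ H s) := by
  intro q
  obtain ⟨h₁, rfl⟩ := Submodule.Quotient.mk_surjective _ q
  obtain ⟨h₂, hh₂⟩ := exists_sub_ρ₂_mem hH g (H.ρ₁ h₁)
  obtain ⟨r, hr⟩ := Submodule.mem_span_singleton.1 hh₂
  exact ⟨⟨((h₁, h₂), r), (mem_corr _).2 (by rw [δ_apply]; exact hr.symm)⟩, rfl⟩

theorem p₂_surjective (g : GoodSection H s) : Function.Surjective (p₂ H s) := by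
  intro q
  obtain ⟨r, rfl⟩ := Submodule.Quotient.mk_surjective _ q
  obtain ⟨z, hz⟩ := g.surj ((show 𝔠.R₁₂ A from r) • H.ρ₁ s.1)
  exact ⟨⟨(z, r), (mem_corr _).2 hz⟩, rfl⟩

theorem unit_δ_apply (a : 𝔠.R₁ A) (b : 𝔠.R₂ A) :
    (Triple.unit 𝔠 A).δ (a, b) = (𝔠.res₁ A a - 𝔠.res₂ A b : 𝔠.R₁₂ A) :=
  δ_apply _ _

theorem ker_p₁_eq_ker_p₂ [IsAlgClosed k] (hH : H.IsInvertible) (g : GoodSection H s) :
    LinearMap.ker (p₁ H s) = LinearMap.ker (p₂ H s) := by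
  ext x
  rw [LinearMap.mem_ker, LinearMap.mem_ker, p₁_eq_zero_iff, p₂_eq_zero_iff]
  obtain ⟨⟨⟨z₁, z₂⟩, r⟩, hx⟩ := x
  rw [mem_corr, δ_apply] at hx
  change H.ρ₁ z₁ - H.ρ₂ z₂ = (show 𝔠.R₁₂ A from r) • H.ρ₁ s.1 at hx
  change z₁ ∈ Submodule.span (𝔠.R₁ A) {s.1} ↔ r ∈ LinearMap.range (Triple.unit 𝔠 A).δ
  constructor
  · intro h
    obtain ⟨a, rfl⟩ := Submodule.mem_span_singleton.1 h
    have h2 : H.ρ₂ z₂ = (𝔠.res₁ A a - (show 𝔠.R₁₂ A from r)) • H.ρ₁ s.1 := by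
      rw [sub_smul, ← hx, H.ρ₁.map_smulₛₗ]
      change _ = 𝔠.res₁ A a • H.ρ₁ s.1 - (𝔠.res₁ A a • H.ρ₁ s.1 - H.ρ₂ z₂)
      abel
    obtain ⟨b, rfl⟩ := Submodule.mem_span_singleton.1
      (mem_span_of_ρ₂_mem hH g z₂ (h2 ▸ Submodule.smul_mem _ _
        (Submodule.mem_span_singleton_self _)))
    have h3 : (𝔠.res₁ A a - (show 𝔠.R₁₂ A from r) - 𝔠.res₂ A b) • H.ρ₁ s.1 = 0 := by
      rw [sub_smul, ← h2, H.ρ₂.map_smulₛₗ, g.ρ_eq]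
      exact sub_self _
    have h4 := g.inj₁₂ hH _ h3
    refine ⟨(a, b), ?_⟩
    rw [unit_δ_apply]
    have : (show 𝔠.R₁₂ A from r) = 𝔠.res₁ A a - 𝔠.res₂ A b := by
      linear_combination -h4
    exact this.symm
  · rintro ⟨⟨a, b⟩, hab⟩
    rw [unit_δ_apply] at hab
    have h1 : H.δ ((z₁, z₂) - ((show 𝔠.R₁ A from a) • s.1, (show 𝔠.R₂ A from b) • s.2)) = 0 := by
      rw [map_sub, δ_apply, δ_apply, sub_eq_zero]
      change H.ρ₁ z₁ - H.ρ₂ z₂ = H.ρ₁ ((show 𝔠.R₁ A from a) • s.1) -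
        H.ρ₂ ((show 𝔠.R₂ A from b) • s.2)
      rw [hx, ← hab, H.ρ₁.map_smulₛₗ, H.ρ₂.map_smulₛₗ, ← g.ρ_eq, sub_smul]
      rfl
    obtain ⟨c, hc⟩ := g.gen _ h1
    have h2 : z₁ = (show 𝔠.R₁ A from a) • s.1 + algebraMap A (𝔠.R₁ A) c • s.1 := by
      have := congrArg Prod.fst hc
      change z₁ - (show 𝔠.R₁ A from a) • s.1 = algebraMap A (𝔠.R₁ A) c • s.1 at this
      rw [← this]; abel
    rw [h2]
    exact Submodule.add_mem _ (Submodule.smul_mem _ _ (Submodule.mem_span_singleton_self _))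
      (Submodule.smul_mem _ _ (Submodule.mem_span_singleton_self _))

end Conn

/-- the connecting homomorphism of `0 → 𝒪 → H → H/𝒪s → 0` is an isomorphism -/
theorem GoodSection.nonempty_quot_equiv_H1 [IsAlgClosed k] (hH : H.IsInvertible)
    (g : GoodSection H s) :
    Nonempty ((H.N₁ ⧸ Submodule.span (𝔠.R₁ A) {s.1}) ≃ₗ[A]
      ((Triple.unit 𝔠 A).N₁₂ ⧸ LinearMap.range (Triple.unit 𝔠 A).δ)) :=
  ⟨((Conn.p₁ H s).quotKerEquivOfSurjective (Conn.p₁_surjective hH g)).symm ≪≫ₗ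
    Submodule.quotEquivOfEq _ _ (Conn.ker_p₁_eq_ker_p₂ hH g) ≪≫ₗ
    (Conn.p₂ H s).quotKerEquivOfSurjective (Conn.p₂_surjective g)⟩

end Fermat.Agent.S25.H3a
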