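/-
S25 / H3a, node C: `H¹(C × Spec A, 𝒪)` is free of rank the genus.
-/
import Fermat.Agent.S25.Charts.ChartExists.Defs
import Fermat.Agent.S25.Charts.FieldBasic

set_option autoImplicit false

universe u

open scoped TensorProduct

namespace Fermat.Agent.S25.H3a

namespace H1Unit

/-- cokernels commute with base change -/
theorem nonempty_coker_baseChange_equiv {k : Type u} [Field k] (A : Type u) [CommRing A]
    [Algebra k A] {V W : Type u} [AddCommGroup V] [Module k V] [AddCommGroup W] [Module k W]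
    (d : V →ₗ[k] W) :
    Nonempty (((A ⊗[k] W) ⧸ LinearMap.range (d.baseChange A)) ≃ₗ[A]
      A ⊗[k] (W ⧸ LinearMap.range d)) := by
  have hex : Function.Exact d (LinearMap.range d).mkQ := fun y => by
    rw [Submodule.mkQ_apply, Submodule.Quotient.mk_eq_zero]
    rfl
  have hsurj : Function.Surjective (LinearMap.range d).mkQ := Submodule.mkQ_surjective _
  have hex' : Function.Exact (d.baseChange A) ((LinearMap.range d).mkQ.baseChange A) :=
    lTensor_exact A hex hsurj
  have hsurj' : Function.Surjective ((LinearMap.range d).mkQ.baseChange A) :=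
    LinearMap.lTensor_surjective A hsurj
  exact ⟨hex'.linearEquivOfSurjective hsurj'⟩

end H1Unit

variable {k : Type u} [Field k] (𝔠 : CurveCharts k) (A : Type u) [CommRing A] [Algebra k A]

/-- `H¹(C × Spec A, 𝒪) = A ⊗ H¹(C, 𝒪)` is free of rank the genus -/
theorem nonempty_H1_unit_equiv :
    Nonempty (((Triple.unit 𝔠 A).N₁₂ ⧸ LinearMap.range (Triple.unit 𝔠 A).δ) ≃ₗ[A]
      (Fin 𝔠.genus → A)) := by
  obtain ⟨e0, e1, h, -, -⟩ := Triple.BaseChange.exists_equiv_δ (φ := Algebra.ofId k A)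
    (fun _ => rfl) (Triple.BaseChange.unit (𝔠 := 𝔠) (Algebra.ofId k A))
  have hfin := (finite_cohomology (Triple.unit 𝔠 k) Triple.unit_isInvertible).2
  obtain ⟨e2⟩ := H1Unit.nonempty_coker_baseChange_equiv A (Triple.unit 𝔠 k).δ
  have hrange : (LinearMap.range ((Triple.unit 𝔠 k).δ.baseChange A)).map e1.toLinearMap =
      LinearMap.range (Triple.unit 𝔠 A).δ := by
    ext n
    constructor
    · rintro ⟨_, ⟨z, rfl⟩, rfl⟩
      exact ⟨e0 z, (h z).symm⟩
    · rintro ⟨z, rfl⟩
      refine ⟨_, ⟨e0.symm z, rfl⟩, ?_⟩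
      change e1 _ = _
      rw [h, LinearEquiv.apply_symm_apply]
  let e3 := Submodule.Quotient.equiv _ _ e1 hrange
  let b := Module.finBasisOfFinrankEq k
    ((Triple.unit 𝔠 k).N₁₂ ⧸ LinearMap.range (Triple.unit 𝔠 k).δ) (n := 𝔠.genus) rfl
  exact ⟨e3.symm.trans (e2.trans (b.baseChange A).equivFun)⟩

end Fermat.Agent.S25.H3a
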