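/-
S25 / H3a, node F (Mathlib only): an invertible module over a finite locally free algebra has the
same rank as the algebra.
-/
import Mathlib

set_option autoImplicit false

universe u

open scoped TensorProduct

namespace Fermat.Agent.S25.H3a

attribute [local instance] Algebra.TensorProduct.rightAlgebra in
/-- an invertible module over a finite locally free algebra has the same rank as the algebra -/
theorem rankAtStalk_quot_eq {A R : Type u} [CommRing A] [CommRing R] [Algebra A R] (I : Ideal R)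
    (M : Type u) [AddCommGroup M] [Module R M] [Module A M] [IsScalarTower A R M]
    [Module.Invertible R M] [Module.Finite A (R ⧸ I)] [Module.Projective A (R ⧸ I)]
    (p : PrimeSpectrum A) :
    Module.rankAtStalk (R := A) (M ⧸ (I • ⊤ : Submodule R M)) p =
      Module.rankAtStalk (R := A) (R ⧸ I) p := by
  let e : ((R ⧸ I) ⊗[R] M) ≃ₗ[A] (M ⧸ (I • ⊤ : Submodule R M)) :=
    (TensorProduct.quotTensorEquivQuotSMul M I).restrictScalars A
  rw [← Module.rankAtStalk_eq_of_equiv e]
  have h1 : Module.Flat A ((R ⧸ I) ⊗[R] M) := Module.Flat.trans A (R ⧸ I) _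
  have h2 : Module.Finite A ((R ⧸ I) ⊗[R] M) := Module.Finite.trans (R ⧸ I) _
  rw [Module.rankAtStalk_eq, Module.rankAtStalk_eq]
  have h3 : IsArtinianRing (p.asIdeal.ResidueField ⊗[A] (R ⧸ I)) :=
    IsArtinianRing.of_finite p.asIdeal.ResidueField _
  let e1 : (p.asIdeal.ResidueField ⊗[A] (R ⧸ I)) ⊗[R ⧸ I] ((R ⧸ I) ⊗[R] M)
      ≃ₗ[p.asIdeal.ResidueField] p.asIdeal.ResidueField ⊗[A] ((R ⧸ I) ⊗[R] M) :=
    Algebra.IsPushout.cancelBaseChange A p.asIdeal.ResidueField (R ⧸ I)
      (p.asIdeal.ResidueField ⊗[A] (R ⧸ I)) ((R ⧸ I) ⊗[R] M)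
  have h4 : Module.Free (p.asIdeal.ResidueField ⊗[A] (R ⧸ I))
      ((p.asIdeal.ResidueField ⊗[A] (R ⧸ I)) ⊗[R ⧸ I] ((R ⧸ I) ⊗[R] M)) := inferInstance
  obtain ⟨e2⟩ := Module.Invertible.free_iff_linearEquiv.mp h4
  exact (e1.symm.trans (e2.restrictScalars p.asIdeal.ResidueField)).finrank_eq

end Fermat.Agent.S25.H3a
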