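/-
S25 / H3a, node G: `R₁ / secIdeal s` is finite projective of rank `g`.   Owner: helper205.
-/
import Fermat.Agent.S25.Charts.ChartExists.InvSection
import Fermat.Agent.S25.Charts.ChartExists.Rank

set_option autoImplicit false

universe u

open scoped TensorProduct

namespace Fermat.Agent.S25.H3a

variable {k : Type u} [Field k] {𝔠 : CurveCharts k} {A : Type u} [CommRing A] [Algebra k A]

theorem isDiv_secIdeal {M : Type u} [AddCommGroup M] [Module (𝔠.R₁ A) M] [Module A M]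
    [IsScalarTower A (𝔠.R₁ A) M] [Module.Invertible (𝔠.R₁ A) M] (s : M) (g : ℕ)
    (e : (M ⧸ Submodule.span (𝔠.R₁ A) {s}) ≃ₗ[A] (Fin g → A)) :
    IsDiv A (secIdeal (𝔠.R₁ A) s) g := by
  obtain ⟨n, α, β, hβα⟩ := exists_retract (R := 𝔠.R₁ A) s
  let E : (Fin n → M ⧸ Submodule.span (𝔠.R₁ A) {s}) ≃ₗ[A] (Fin n → Fin g → A) :=
    LinearEquiv.piCongrRight fun _ => e
  let i : (𝔠.R₁ A ⧸ secIdeal (𝔠.R₁ A) s) →ₗ[A] (Fin n → Fin g → A) :=
    E.toLinearMap ∘ₗ α.restrictScalars A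
  let r : (Fin n → Fin g → A) →ₗ[A] (𝔠.R₁ A ⧸ secIdeal (𝔠.R₁ A) s) :=
    β.restrictScalars A ∘ₗ E.symm.toLinearMap
  have hri : r ∘ₗ i = LinearMap.id := by
    refine LinearMap.ext fun x => ?_
    show β (E.symm (E (α x))) = x
    rw [LinearEquiv.symm_apply_apply]
    exact LinearMap.congr_fun hβα x
  have hsurj : Function.Surjective r := fun x => ⟨i x, LinearMap.congr_fun hri x⟩
  have hfin : Module.Finite A (𝔠.R₁ A ⧸ secIdeal (𝔠.R₁ A) s) := Module.Finite.of_surjective r hsurj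
  have hproj : Module.Projective A (𝔠.R₁ A ⧸ secIdeal (𝔠.R₁ A) s) :=
    Module.Projective.of_split i r hri
  refine ⟨hfin, hproj, fun p => ?_⟩
  have : Nontrivial A := p.nontrivial
  rw [← rankAtStalk_quot_eq (secIdeal (𝔠.R₁ A) s) M p]
  have e' : (M ⧸ (secIdeal (𝔠.R₁ A) s • ⊤ : Submodule (𝔠.R₁ A) M)) ≃ₗ[A] (Fin g → A) :=
    ((Submodule.quotEquivOfEq _ _ (secIdeal_smul_top s)).restrictScalars A).trans e
  rw [Module.rankAtStalk_eq_of_equiv e', Module.rankAtStalk_eq_finrank_of_free]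
  simp

end Fermat.Agent.S25.H3a
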