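/-
S25 / H3a, node I: `𝒪(-D) ⊗ H ≅ 𝒪` for `D` the divisor of zeros of a good section of `H`.
Owner: helper285.
-/
import Fermat.Agent.S25.Charts.ChartExists.Good
import Fermat.Agent.S25.Triple.IdealSMul

set_option autoImplicit false

universe u

open scoped TensorProduct

namespace Fermat.Agent.S25.H3a

open Triple

namespace IsoUnit

section Abstract

variable {R : Type u} [CommRing R] {M : Type u} [AddCommGroup M] [Module R M]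

/-- `R ≃ R s` for a torsion-free element `s` -/
noncomputable def spanEquiv (s : M) (hs : ∀ r : R, r • s = 0 → r = 0) :
    R ≃ₗ[R] Submodule.span R {s} :=
  (LinearEquiv.ofInjective (LinearMap.toSpanSingleton R M s)
    ((injective_iff_map_eq_zero _).2 fun r hr => hs r hr)) ≪≫ₗ
    LinearEquiv.ofEq _ _ (LinearMap.span_singleton_eq_range R M s).symm

theorem spanEquiv_apply (s : M) (hs : ∀ r : R, r • s = 0 → r = 0) (r : R) :
    ((spanEquiv s hs r : Submodule.span R {s}) : M) = r • s := rfl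

/-- `𝔞 ⊗ M ≃ R` when `𝔞 M = R s` with `s` torsion-free -/
noncomputable def equiv (𝔞 : Ideal R) [Module.Flat R M] (s : M)
    (h : 𝔞 • (⊤ : Submodule R M) = Submodule.span R {s}) (hs : ∀ r : R, r • s = 0 → r = 0) :
    (𝔞 ⊗[R] M) ≃ₗ[R] R :=
  idealTensorEquiv 𝔞 ≪≫ₗ LinearEquiv.ofEq _ _ h ≪≫ₗ (spanEquiv s hs).symm

theorem coe_idealTensorEquiv (𝔞 : Ideal R) [Module.Flat R M] (z : 𝔞 ⊗[R] M) :
    ((idealTensorEquiv 𝔞 z : (𝔞 • ⊤ : Submodule R M)) : M) = idealMulMap 𝔞 z := rfl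

theorem equiv_smul (𝔞 : Ideal R) [Module.Flat R M] (s : M)
    (h : 𝔞 • (⊤ : Submodule R M) = Submodule.span R {s}) (hs : ∀ r : R, r • s = 0 → r = 0)
    (z : 𝔞 ⊗[R] M) : equiv 𝔞 s h hs z • s = idealMulMap 𝔞 z := by
  rw [← spanEquiv_apply s hs, equiv, LinearEquiv.trans_apply, LinearEquiv.trans_apply,
    LinearEquiv.apply_symm_apply, LinearEquiv.coe_ofEq_apply, coe_idealTensorEquiv]

theorem idealMulMap_map {S N : Type u} [CommRing S] [AddCommGroup N] [Module S N]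
    {φ : R →+* S} (I : Ideal R) (J : Ideal S) (ι : I →ₛₗ[φ] J)
    (hι : ∀ a, (ι a : S) = φ a) (ρ : M →ₛₗ[φ] N) (t : I ⊗[R] M) :
    idealMulMap J (TensorProduct.map ι ρ t) = ρ (idealMulMap I t) := by
  induction t with
  | zero => simp
  | tmul a m => simp [hι]
  | add x y hx hy => simp [hx, hy]

end Abstract

end IsoUnit

variable {k : Type u} [Field k] {𝔠 : CurveCharts k} {A : Type u} [CommRing A] [Algebra k A]
  {H : Triple 𝔠 A} {s : H.N₁ × H.N₂}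

open IsoUnit in
/-- `𝒪(-D) ⊗ H ≅ 𝒪` for `D` the divisor of zeros of `s` -/
theorem GoodSection.nonempty_iso_unit [IsAlgClosed k] (hH : H.IsInvertible)
    (g : GoodSection H s) :
    Nonempty (Iso ((Idiv (secIdeal (𝔠.R₁ A) s.1)).tensor H) (Triple.unit 𝔠 A)) := by
  have i₁ := hH.inv₁
  have i₂ := hH.inv₂
  have i₁₂ := hH.inv₁₂
  have h₁ : secIdeal (𝔠.R₁ A) s.1 • (⊤ : Submodule (𝔠.R₁ A) H.N₁) =
      Submodule.span (𝔠.R₁ A) {s.1} := secIdeal_smul_top s.1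
  have h₂ : (((secIdeal (𝔠.R₁ A) s.1).map (𝔠.res₁ A).toRingHom).comap (𝔠.res₂ A).toRingHom) •
      (⊤ : Submodule (𝔠.R₂ A) H.N₂) = Submodule.span (𝔠.R₂ A) {s.2} := by
    rw [g.comap hH]; exact secIdeal_smul_top s.2
  have h₁₂ : ((secIdeal (𝔠.R₁ A) s.1).map (𝔠.res₁ A).toRingHom) •
      (⊤ : Submodule (𝔠.R₁₂ A) H.N₁₂) = Submodule.span (𝔠.R₁₂ A) {H.ρ₁ s.1} := by
    rw [← GoodSection.secIdeal₁₂ hH s]; exact secIdeal_smul_top _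
  have c₁ : ∀ n : (secIdeal (𝔠.R₁ A) s.1) ⊗[𝔠.R₁ A] H.N₁,
      equiv _ (H.ρ₁ s.1) h₁₂ (g.inj₁₂ hH)
        (TensorProduct.map (Idiv (secIdeal (𝔠.R₁ A) s.1)).ρ₁ H.ρ₁ n) =
      𝔠.res₁ A (equiv _ s.1 h₁ (g.inj₁ hH) n) := by
    intro n
    refine sub_eq_zero.1 (g.inj₁₂ hH _ ?_)
    rw [sub_smul, equiv_smul, sub_eq_zero]
    have e1 : idealMulMap _ (TensorProduct.map (Idiv (secIdeal (𝔠.R₁ A) s.1)).ρ₁ H.ρ₁ n) =
        H.ρ₁ (idealMulMap _ n) :=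
      idealMulMap_map _ _ (Idiv (secIdeal (𝔠.R₁ A) s.1)).ρ₁ (fun _ => rfl) H.ρ₁ n
    refine e1.trans ?_
    rw [← equiv_smul _ s.1 h₁ (g.inj₁ hH), H.ρ₁.map_smulₛₗ]
    rfl
  have c₂ : ∀ n : (((secIdeal (𝔠.R₁ A) s.1).map (𝔠.res₁ A).toRingHom).comap
        (𝔠.res₂ A).toRingHom : Ideal (𝔠.R₂ A)) ⊗[𝔠.R₂ A] H.N₂,
      equiv _ (H.ρ₁ s.1) h₁₂ (g.inj₁₂ hH)
        (TensorProduct.map (Idiv (secIdeal (𝔠.R₁ A) s.1)).ρ₂ H.ρ₂ n) =
      𝔠.res₂ A (equiv _ s.2 h₂ (g.inj₂ hH) n) := by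
    intro n
    refine sub_eq_zero.1 (g.inj₁₂ hH _ ?_)
    rw [sub_smul, equiv_smul, sub_eq_zero]
    have e1 : idealMulMap _ (TensorProduct.map (Idiv (secIdeal (𝔠.R₁ A) s.1)).ρ₂ H.ρ₂ n) =
        H.ρ₂ (idealMulMap _ n) :=
      idealMulMap_map _ _ (Idiv (secIdeal (𝔠.R₁ A) s.1)).ρ₂ (fun _ => rfl) H.ρ₂ n
    refine e1.trans ?_
    rw [← equiv_smul _ s.2 h₂ (g.inj₂ hH), H.ρ₂.map_smulₛₗ, g.ρ_eq]
    rfl
  exact ⟨{ e₁ := equiv _ s.1 h₁ (g.inj₁ hH)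
           e₂ := equiv _ s.2 h₂ (g.inj₂ hH)
           e₁₂ := equiv _ (H.ρ₁ s.1) h₁₂ (g.inj₁₂ hH)
           comm₁ := c₁
           comm₂ := c₂ }⟩

end Fermat.Agent.S25.H3a
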