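/-
S25 / H3a, node J: `ihom` of rigid invertible triples is rigid.
-/
import Fermat.Agent.S25.Triple.IHomCalc

set_option autoImplicit false

universe u

open scoped TensorProduct

namespace Fermat.Agent.S25.H3a

open Triple

variable {k : Type u} [Field k] {𝔠 : CurveCharts k} {A : Type u} [CommRing A] [Algebra k A]

theorem ihom_isRigid {T T' : Triple 𝔠 A} (hT : T.IsInvertible) (hTr : T.IsRigid)
    (_hT' : T'.IsInvertible) (hTr' : T'.IsRigid) : (ihom T T').IsRigid :=
  IsRigid.ihom hT hTr hTr'

end Fermat.Agent.S25.H3a
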