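/-
S25 / H3a, node D: `NS` + rigid => a good global section.
-/
import Fermat.Agent.S25.Charts.ChartExists.P0
import Fermat.Agent.S25.Triple.IdealSMul
import Fermat.Agent.S25.Triple.IsoLemmas

set_option autoImplicit false

universe u

open scoped TensorProduct

namespace Fermat.Agent.S25.H3a

open Triple

variable {k : Type u} [Field k] {𝔠 : CurveCharts k} {A : Type u} [CommRing A] [Algebra k A]

namespace Section

/-- bijectivity of the Čech differential is invariant under isomorphism -/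
theorem bijective_δ_of_iso {T T' : Triple 𝔠 A} (e : Iso T T') (h : Function.Bijective T.δ) :
    Function.Bijective T'.δ := by
  have key : ∀ z, T'.δ z = e.equiv₁ (T.δ (e.equiv₀.symm z)) := by
    intro z
    rw [e.equiv₁_δ, LinearEquiv.apply_symm_apply]
  have : (T'.δ : T'.N₁ × T'.N₂ → T'.N₁₂) = e.equiv₁ ∘ T.δ ∘ e.equiv₀.symm := funext key
  rw [this]
  exact e.equiv₁.bijective.comp (h.comp e.equiv₀.symm.bijective)

end Section

theorem noCoh_of_bijective (H : Triple 𝔠 A) (hH : H.IsInvertible)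
    (h : Function.Bijective (H.tensor (IP0 𝔠 A)).δ) : NoCoh H := by
  have i1 := hH.inv₁
  have i2 := hH.inv₂
  have i12 := hH.inv₁₂
  have ha₁₂ : (m0 𝔠 A).map (𝔠.res₂ A).toRingHom = ⊤ :=
    Ideal.eq_top_of_isUnit_mem _ (Ideal.mem_map_of_mem _ (yA_mem_m0 𝔠 A))
      (TensorAux.isUnit_res₂_yA 𝔠 A)
  have ha₁ : ((m0 𝔠 A).map (𝔠.res₂ A).toRingHom).comap (𝔠.res₁ A).toRingHom = ⊤ := by
    rw [ha₁₂]; exact Ideal.comap_top
  have h₁ : (((m0 𝔠 A).map (𝔠.res₂ A).toRingHom).comap (𝔠.res₁ A).toRingHom).map (𝔠.res₁ A) ≤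
      (m0 𝔠 A).map (𝔠.res₂ A).toRingHom := Ideal.map_comap_le
  have h₂ : (m0 𝔠 A).map (𝔠.res₂ A) ≤ (m0 𝔠 A).map (𝔠.res₂ A).toRingHom := le_rfl
  let e0 : Iso (IP0 𝔠 A) (idealTriple _ _ _ h₁ h₂) :=
    { e₁ := LinearEquiv.refl _ _
      e₂ := LinearEquiv.refl _ _
      e₁₂ := LinearEquiv.refl _ _
      comm₁ := fun _ => rfl
      comm₂ := fun _ => rfl }
  let e : Iso (H.tensor (IP0 𝔠 A)) (H.idealSMul _ _ _ h₁ h₂) :=
    ((tensorComm H (IP0 𝔠 A)).trans (Iso.tensor e0 (Iso.refl H))).trans (idealTensorIso H h₁ h₂)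
  have hbij := Section.bijective_δ_of_iso e h
  have top₁ : ∀ n : H.N₁, n ∈ ((((m0 𝔠 A).map (𝔠.res₂ A).toRingHom).comap
      (𝔠.res₁ A).toRingHom) • ⊤ : Submodule (𝔠.R₁ A) H.N₁) := by
    intro n
    rw [ha₁, Submodule.top_smul]
    trivial
  have top₁₂ : ∀ n : H.N₁₂, n ∈ (((m0 𝔠 A).map (𝔠.res₂ A).toRingHom) • ⊤ :
      Submodule (𝔠.R₁₂ A) H.N₁₂) := by
    intro n
    rw [ha₁₂, Submodule.top_smul]
    trivial
  have hδ : ∀ w : (H.idealSMul _ _ _ h₁ h₂).N₁ × (H.idealSMul _ _ _ h₁ h₂).N₂,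
      (H.idealSMulHom _ _ _ h₁ h₂).f₁₂ ((H.idealSMul _ _ _ h₁ h₂).δ w) =
        H.δ ((H.idealSMulHom _ _ _ h₁ h₂).f₁ w.1, (H.idealSMulHom _ _ _ h₁ h₂).f₂ w.2) := by
    intro w
    rw [δ_apply, δ_apply, map_sub, (H.idealSMulHom _ _ _ h₁ h₂).comm₁,
      (H.idealSMulHom _ _ _ h₁ h₂).comm₂]
  have inj₁₂ : Function.Injective (H.idealSMulHom _ _ _ h₁ h₂).f₁₂ := Subtype.val_injective
  constructor
  · rintro ⟨z1, z2⟩ hz hz0
    have hw : (H.idealSMul _ _ _ h₁ h₂).δ (⟨z1, top₁ z1⟩, ⟨z2, hz⟩) = 0 := by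
      apply inj₁₂
      rw [hδ, map_zero]
      exact hz0
    have hw0 := hbij.1 (hw.trans (map_zero _).symm)
    have e1 := congrArg (fun w => (H.idealSMulHom _ _ _ h₁ h₂).f₁ (Prod.fst w)) hw0
    have e2 := congrArg (fun w => (H.idealSMulHom _ _ _ h₁ h₂).f₂ (Prod.snd w)) hw0
    exact Prod.ext e1 e2
  · intro n
    obtain ⟨w, hw⟩ := hbij.2 ⟨n, top₁₂ n⟩
    refine ⟨((H.idealSMulHom _ _ _ h₁ h₂).f₁ w.1, (H.idealSMulHom _ _ _ h₁ h₂).f₂ w.2),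
      Subtype.property (p := fun x => x ∈ (m0 𝔠 A • ⊤ : Submodule (𝔠.R₂ A) H.N₂)) w.2, ?_⟩
    rw [← hδ, hw]
    rfl

theorem exists_goodSection (H : Triple 𝔠 A) (hr : H.IsRigid) (h : NoCoh H) :
    ∃ s, GoodSection H s := by
  obtain ⟨n, hn⟩ := hr
  obtain ⟨z, hz, hzδ⟩ := h.surj (H.ρ₂ n)
  rw [δ_apply] at hzδ
  have genP0 : ∀ m : H.N₂, ∃ r : 𝔠.R₂ A,
      m - r • (n + z.2) ∈ m0 𝔠 A • (⊤ : Submodule (𝔠.R₂ A) H.N₂) := by
    intro m
    obtain ⟨r, hr⟩ := hn m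
    refine ⟨r, ?_⟩
    have : m - r • (n + z.2) = (m - r • n) - r • z.2 := by rw [smul_add]; abel
    rw [this]
    exact sub_mem hr (Submodule.smul_mem _ _ hz)
  have hker : H.δ (z.1, n + z.2) = 0 := by
    rw [δ_apply]
    change H.ρ₁ z.1 - H.ρ₂ (n + z.2) = 0
    rw [map_add, ← hzδ]
    abel
  refine ⟨(z.1, n + z.2), hker, ?_, ?_, genP0⟩
  · intro w hw
    obtain ⟨r, hr⟩ := genP0 w.2
    refine ⟨𝔠.ev₀ A r, ?_⟩
    rw [← sub_eq_zero]
    apply h.inj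
    · change w.2 - 𝔠.ev₀ A r • (n + z.2) ∈ _
      have : w.2 - 𝔠.ev₀ A r • (n + z.2) = (w.2 - r • (n + z.2)) +
          (r - algebraMap A (𝔠.R₂ A) (𝔠.ev₀ A r)) • (n + z.2) := by
        rw [sub_smul, algebraMap_smul]
        abel
      rw [this]
      exact add_mem hr (Submodule.smul_mem_smul (sub_algebraMap_ev₀_mem 𝔠 A r) trivial)
    · rw [map_sub, map_smul, hw, hker, smul_zero, sub_zero]
  · intro m
    obtain ⟨w, _, hw⟩ := h.surj m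
    exact ⟨w, hw⟩

end Fermat.Agent.S25.H3a
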